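import Fermat.Agent.AbVar.Base

/-!
# Centers of valuation rings of the function field on an integral scheme
-/

set_option autoImplicit false
universe u
open CategoryTheory CategoryTheory.Limits AlgebraicGeometry TopologicalSpace
open IsLocalRing

namespace Fermat.Agent.CurvePl

open Fermat.Agent.AbVar

variable {X : Scheme.{u}} {K : Type u} [Field K] (s : X ⟶ Spec (.of K))

theorem fromSpecStalk_comp (z : X) : X.fromSpecStalk z ≫ s =
    Spec.map (CommRingCat.ofHom (kStalk s z)) := by
  apply ext_of_isAffine
  rw [Scheme.Hom.comp_appTop, Scheme.fromSpecStalk_appTop]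
  have h1 : CommRingCat.ofHom (kStalk s z) = (Scheme.ΓSpecIso (.of K)).inv ≫ s.appTop ≫
    X.presheaf.germ ⊤ z trivial := rfl
  rw [h1]
  have h2 := Scheme.ΓSpecIso_inv_naturality ((Scheme.ΓSpecIso (.of K)).inv ≫ s.appTop ≫
    X.presheaf.germ ⊤ z trivial)
  rw [← cancel_epi (Scheme.ΓSpecIso (.of K)).inv, ← h2]
  simp only [Category.assoc]
  congr 3

variable [IsIntegral X]

/-- The valuation ring `V` of the function field dominates the local ring at `z`. -/
def DomAt (V : ValuationSubring X.functionField) (z : X) : Prop :=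
  (∀ y ∈ stalkIn z, y ∈ V) ∧ ∀ y ∈ stalkIn z, y⁻¹ ∈ V → y⁻¹ ∈ stalkIn z

/-- the map `O_z → V`. -/
noncomputable def stalkTo {V : ValuationSubring X.functionField} {z : X}
    (h : ∀ y ∈ stalkIn z, y ∈ V) : X.presheaf.stalk z →+* V :=
  (algebraMap (X.presheaf.stalk z) X.functionField).codRestrict V.toSubring
    fun a => h _ ⟨a, rfl⟩

theorem coe_stalkTo {V : ValuationSubring X.functionField} {z : X}
    (h : ∀ y ∈ stalkIn z, y ∈ V) (a : X.presheaf.stalk z) :
    ((stalkTo h a : V) : X.functionField) = algebraMap (X.presheaf.stalk z) X.functionField a :=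
  rfl

theorem algebraMap_stalk_injective (z : X) :
    Function.Injective (algebraMap (X.presheaf.stalk z) X.functionField) :=
  IsFractionRing.injective _ _

theorem isLocalHom_stalkTo {V : ValuationSubring X.functionField} {z : X}
    (h : DomAt V z) : IsLocalHom (stalkTo h.1) where
  map_nonunit a ha := by
    obtain ⟨b, hb⟩ := isUnit_iff_exists_inv.mp ha
    have hb' : algebraMap (X.presheaf.stalk z) X.functionField a * (b : X.functionField) = 1 := by
      have := congrArg Subtype.val hb
      exact this
    have ha0 : algebraMap (X.presheaf.stalk z) X.functionField a ≠ 0 := by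
      intro h0
      rw [h0, zero_mul] at hb'
      exact zero_ne_one hb'
    have hinv : (algebraMap (X.presheaf.stalk z) X.functionField a)⁻¹ ∈ V := by
      rw [← eq_inv_of_mul_eq_one_right hb']
      exact b.2
    obtain ⟨c, hc⟩ := h.2 _ ⟨a, rfl⟩ hinv
    rw [isUnit_iff_exists_inv]
    refine ⟨c, algebraMap_stalk_injective z ?_⟩
    rw [map_mul, hc, map_one, mul_inv_cancel₀ ha0]

theorem kFun_eq (z : X) (a : K) :
    kFun s a = algebraMap (X.presheaf.stalk z) X.functionField (kStalk s z a) := by
  have h := X.presheaf.germ_stalkSpecializes (U := ⊤) (y := z) trivial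
    ((genericPoint_spec X).specializes trivial)
  have : kFun s = (algebraMap (X.presheaf.stalk z) X.functionField).comp (kStalk s z) := by
    unfold kFun kStalk
    rw [← h]
    rfl
  rw [this]
  rfl

theorem kFun_mem_stalkIn (z : X) (a : K) : kFun s a ∈ stalkIn z :=
  ⟨kStalk s z a, (kFun_eq s z a).symm⟩

/-- the morphism `Spec V → X`. -/
noncomputable def specTo {V : ValuationSubring X.functionField} {z : X}
    (h : ∀ y ∈ stalkIn z, y ∈ V) : Spec (.of V) ⟶ X :=
  Spec.map (CommRingCat.ofHom (stalkTo h)) ≫ X.fromSpecStalk z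

theorem specTo_closedPoint {V : ValuationSubring X.functionField} {z : X}
    (h : DomAt V z) : specTo h.1 (closedPoint V) = z := by
  have := isLocalHom_stalkTo h
  have h2 : IsLocalHom (CommRingCat.ofHom (stalkTo h.1)).hom := this
  rw [specTo, Scheme.Hom.comp_apply]
  have := Spec_closedPoint (f := CommRingCat.ofHom (stalkTo h.1))
  rw [this, Scheme.fromSpecStalk_closedPoint]

theorem generic_comp_specTo {V : ValuationSubring X.functionField} {z : X}
    (h : ∀ y ∈ stalkIn z, y ∈ V) :
    Spec.map (CommRingCat.ofHom (algebraMap V X.functionField)) ≫ specTo h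
      = X.fromSpecStalk (genericPoint X) := by
  rw [specTo, ← Category.assoc, ← Spec.map_comp]
  exact X.SpecMap_stalkSpecializes_fromSpecStalk ((genericPoint_spec X).specializes trivial)

theorem specTo_comp {V : ValuationSubring X.functionField} {z : X}
    (h : ∀ y ∈ stalkIn z, y ∈ V) (hV : ∀ a, kFun s a ∈ V) :
    specTo h ≫ s = Spec.map (CommRingCat.ofHom ((kFun s).codRestrict V.toSubring hV)) := by
  rw [specTo, Category.assoc, fromSpecStalk_comp, ← Spec.map_comp]
  congr 1
  ext a
  exact (kFun_eq s z a).symm

/-- Uniqueness of the center (separated case). -/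
theorem DomAt.unique [IsSeparated s] {V : ValuationSubring X.functionField}
    {z z' : X} (h : DomAt V z) (h' : DomAt V z') : z = z' := by
  have hV : ∀ a, kFun s a ∈ V := fun a => h.1 _ (kFun_mem_stalkIn s z a)
  let S : ValuativeCommSq s :=
    { R := V
      K := X.functionField
      i₁ := X.fromSpecStalk (genericPoint X)
      i₂ := Spec.map (CommRingCat.ofHom ((kFun s).codRestrict V.toSubring hV))
      commSq := ⟨by
        rw [← generic_comp_specTo h.1, Category.assoc, specTo_comp s h.1 hV]⟩ }
  have hsub : Subsingleton S.commSq.LiftStruct := IsSeparated.valuativeCriterion s S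
  let l₁ : S.commSq.LiftStruct := ⟨specTo h.1, generic_comp_specTo h.1, specTo_comp s h.1 hV⟩
  let l₂ : S.commSq.LiftStruct := ⟨specTo h'.1, generic_comp_specTo h'.1, specTo_comp s h'.1 hV⟩
  have h12 : l₁ = l₂ := Subsingleton.elim _ _
  have h3 : specTo h.1 = specTo h'.1 := congrArg (fun l => l.l) h12
  rw [← specTo_closedPoint h, ← specTo_closedPoint h', h3]

/-- Existence of the center (universally closed case). -/
theorem exists_domAt [UniversallyClosed s] (V : ValuationSubring X.functionField)
    (hV : ∀ a, kFun s a ∈ V) : ∃ z, DomAt V z := by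
  have hcomm : CommSq (X.fromSpecStalk (genericPoint X))
      (Spec.map (CommRingCat.ofHom (algebraMap V X.functionField))) s
      (Spec.map (CommRingCat.ofHom ((kFun s).codRestrict V.toSubring hV))) := by
    constructor
    rw [fromSpecStalk_comp, ← Spec.map_comp]
    congr 1
  let S : ValuativeCommSq s :=
    { R := V
      K := X.functionField
      i₁ := X.fromSpecStalk (genericPoint X)
      i₂ := Spec.map (CommRingCat.ofHom ((kFun s).codRestrict V.toSubring hV))
      commSq := hcomm }
  have hex : ValuativeCriterion.Existence s := by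
    have : (ValuativeCriterion.Existence ⊓ @QuasiCompact : MorphismProperty Scheme) s := by
      rw [← UniversallyClosed.eq_valuativeCriterion]; infer_instance
    exact this.1
  obtain ⟨⟨l, hl₁, hl₂⟩⟩ := hex S
  change Spec (.of V) ⟶ X at l
  change Spec.map (CommRingCat.ofHom (algebraMap V X.functionField)) ≫ l
    = X.fromSpecStalk (genericPoint X) at hl₁
  set z := l (closedPoint V) with hz
  let φ : X.presheaf.stalk z ⟶ .of V := Scheme.stalkClosedPointTo l
  have hφ : IsLocalHom φ.hom := Scheme.isLocalHom_stalkClosedPointTo' l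
  have hl : Spec.map φ ≫ X.fromSpecStalk z = l := Scheme.Spec_stalkClosedPointTo_fromSpecStalk l
  have h1 : Spec.map (φ ≫ CommRingCat.ofHom (algebraMap V X.functionField)) ≫ X.fromSpecStalk z =
      Spec.map (X.presheaf.stalkSpecializes ((genericPoint_spec X).specializes trivial)) ≫
        X.fromSpecStalk z := by
    rw [Scheme.SpecMap_stalkSpecializes_fromSpecStalk, ← hl₁, ← hl, Spec.map_comp,
      Category.assoc]
  have h2 := (cancel_mono (X.fromSpecStalk z)).mp h1
  have h3 := Spec.map_injective h2
  have h4 : ∀ a : X.presheaf.stalk z, ((φ.hom a : V) : X.functionField)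
      = algebraMap (X.presheaf.stalk z) X.functionField a := fun a =>
    congrArg (fun ψ => ψ.hom a) h3
  refine ⟨z, ?_, ?_⟩
  · rintro _ ⟨a, rfl⟩
    rw [← h4]
    exact (φ.hom a).2
  · rintro _ ⟨a, rfl⟩ hinv
    by_cases ha : algebraMap (X.presheaf.stalk z) X.functionField a = 0
    · rw [ha, inv_zero]; exact zero_mem _
    have hu : IsUnit (φ.hom a) := by
      rw [isUnit_iff_exists_inv]
      refine ⟨⟨_, hinv⟩, Subtype.ext ?_⟩
      show ((φ.hom a : V) : X.functionField) * (algebraMap _ X.functionField a)⁻¹ = 1
      rw [h4, mul_inv_cancel₀ ha]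
    have hu' : IsUnit a := hφ.map_nonunit a hu
    obtain ⟨b, hb⟩ := isUnit_iff_exists_inv.mp hu'
    refine ⟨b, ?_⟩
    apply eq_inv_of_mul_eq_one_right
    rw [← map_mul, hb, map_one]

end Fermat.Agent.CurvePl
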