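import Fermat.Agent.CurvePl.Places
import Fermat.Agent.FF.PolyClosure

/-!
# The affine charts `{y ≠ ∞}` of a proper smooth curve
-/

set_option autoImplicit false
universe u
open CategoryTheory CategoryTheory.Limits AlgebraicGeometry TopologicalSpace
open IsLocalRing IntermediateField AlgebraicCurve Polynomial

namespace Fermat.Agent.CurvePl

open Fermat.Agent.AbVar Fermat.Agent.Jac Fermat.Agent.FF

section FF

variable {K F : Type*} [Field K] [Field F] [Algebra K F] [IsFF K F]

/-- a function integral over `K[y]`, invertible at `v` and vanishing at the places in `s` -/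
theorem exists_integralClosure_separating {y : F} (hy : Transcendental K y) (v : Place K F)
    (s : Finset (Place K F)) (hv : v ∉ s) (hvy : y ∈ v.toValuationSubring)
    (hsy : ∀ w ∈ s, y ∈ w.toValuationSubring) :
    ∃ b ∈ integralClosure (Algebra.adjoin K {y}) F, b ≠ 0 ∧ v.ord b = 0 ∧
      ∀ w ∈ s, 0 < w.ord b := by
  classical
  have h1 : ∀ w : Place K F, ∃ p : K[X], p ≠ 0 ∧
      (w ∈ insert v s → 0 < w.ord (aeval y p)) := by
    intro w
    by_cases hw : w ∈ insert v s
    · have hyw : y ∈ w.toValuationSubring := by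
        rcases Finset.mem_insert.mp hw with rfl | hw
        · exact hvy
        · exact hsy w hw
      obtain ⟨p, hp, h⟩ := exists_poly_pos hy w hyw
      exact ⟨p, hp, fun _ => h⟩
    · exact ⟨1, one_ne_zero, fun h => absurd h hw⟩
  choose p hp0 hp using h1
  set P : K[X] := ∏ w ∈ insert v s, p w with hP
  have hP0 : P ≠ 0 := Finset.prod_ne_zero_iff.mpr fun w _ => hp0 w
  have hPpos : ∀ w ∈ insert v s, 0 < w.ord (aeval y P) := by
    intro w hw
    have hyw : y ∈ w.toValuationSubring := by
      rcases Finset.mem_insert.mp hw with rfl | hw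
      · exact hvy
      · exact hsy w hw
    have h2 : P = p w * ∏ w' ∈ (insert v s).erase w, p w' := (Finset.mul_prod_erase _ _ hw).symm
    have h3 : (∏ w' ∈ (insert v s).erase w, p w') ≠ 0 :=
      Finset.prod_ne_zero_iff.mpr fun w _ => hp0 w
    have h4 : aeval y (∏ w' ∈ (insert v s).erase w, p w') ≠ 0 := fun h =>
      h3 ((transcendental_iff.mp hy) _ h)
    have h5 : aeval y (p w) ≠ 0 := fun h => hp0 w ((transcendental_iff.mp hy) _ h)
    rw [h2, map_mul, w.ord_mul h5 h4]
    have h6 := (mem_iff_ord_nonneg w h4).mp (aeval_mem w hyw _)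
    have h7 := hp w hw
    omega
  have hdeg : 0 < P.natDegree := by
    rw [Nat.pos_iff_ne_zero]
    intro h0
    rw [Polynomial.eq_C_of_natDegree_eq_zero h0] at hPpos
    have := hPpos v (Finset.mem_insert_self _ _)
    rw [aeval_C, ord_algebraMap] at this
    exact lt_irrefl _ this
  have hY : Transcendental K (aeval y P) := by
    refine transcendental_iff.mpr fun q hq => ?_
    rw [← Polynomial.aeval_comp] at hq
    have h2 := (transcendental_iff.mp hy) _ hq
    rcases Polynomial.comp_eq_zero_iff.mp h2 with h3 | ⟨-, h3⟩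
    · exact h3
    · rw [h3, natDegree_C] at hdeg
      exact absurd hdeg (lt_irrefl _)
  obtain ⟨b, hb, hb0, hvb, hsb⟩ := exists_integral_separating hY v s hv
    (hPpos v (Finset.mem_insert_self _ _)) (fun w hw => hPpos w (Finset.mem_insert_of_mem hw))
  refine ⟨b, ?_, hb0, hvb, hsb⟩
  rw [mem_integralClosure_adjoin_iff]
  intro w hw
  exact (mem_integralClosure_adjoin_iff.mp hb) w (aeval_mem w hw P)

theorem pos_of_mem_nonunits {B : ValuationSubring F} (hKB : ∀ a : K, algebraMap K F a ∈ B)
    (hB : B ≠ ⊤) {f : F} (hf : f ∈ B.nonunits) (hf0 : f ≠ 0) : 0 < (placeOf B hKB hB).ord f := by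
  have h1 : f ∈ (placeOf B hKB hB).toValuationSubring := B.nonunits_subset hf
  have h2 := (mem_iff_ord_nonneg _ hf0).mp h1
  rcases h2.lt_or_eq with h | h
  · exact h
  · exfalso
    have h3 : f⁻¹ ∈ (placeOf B hKB hB).toValuationSubring :=
      (mem_iff_ord_nonneg _ (inv_ne_zero hf0)).mpr (by rw [Place.ord_inv]; omega)
    have h4 : f⁻¹ ∈ B := h3
    rw [ValuationSubring.mem_nonunits_iff] at hf
    rw [← ValuationSubring.valuation_le_one_iff, map_inv₀] at h4
    have h5 : B.valuation f ≠ 0 := (Valuation.ne_zero_iff _).mpr hf0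
    rw [inv_le_one₀ (zero_lt_iff.mpr h5)] at h4
    exact absurd hf (not_lt.mpr h4)

/-- a proper nonzero ideal is centered at a place -/
theorem exists_place_of_ideal {A : Type*} [CommRing A] (φ : A →+* F)
    (hφ : Function.Injective φ) (hK : ∀ a : K, ∃ b, φ b = algebraMap K F a) (I : Ideal A)
    (hI : I ≠ ⊤) (h0 : ∃ a ∈ I, a ≠ 0) : ∃ w : Place K F, (∀ a, φ a ∈ w.toValuationSubring) ∧
      ∀ a ∈ I, a ≠ 0 → 0 < w.ord (φ a) := by
  let e : A ≃+* φ.range := RingEquiv.ofBijective φ.rangeRestrict
    ⟨fun a b h => hφ (congrArg Subtype.val h), φ.rangeRestrict_surjective⟩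
  have hne : I.map (e : A →+* φ.range) ≠ ⊤ := by
    intro h
    apply hI
    have h1 : (I.map (e : A →+* φ.range)).comap (e : A →+* φ.range) = I :=
      Ideal.comap_map_of_bijective _ e.bijective
    rw [h, Ideal.comap_top] at h1
    exact h1.symm
  obtain ⟨B, hAB, hIB⟩ := Ideal.image_subset_nonunits_valuationSubring _ hne
  have hnu : ∀ a ∈ I, φ a ∈ B.nonunits := fun a ha =>
    hIB ⟨e a, Ideal.mem_map_of_mem (e : A →+* φ.range) ha, rfl⟩
  have hKB : ∀ a : K, algebraMap K F a ∈ B := by
    intro a
    obtain ⟨b, hb⟩ := hK a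
    exact hAB ⟨b, hb⟩
  obtain ⟨a₀, ha₀, ha₀'⟩ := h0
  have hφ0 : ∀ a, a ≠ 0 → φ a ≠ 0 := fun a ha h => ha (hφ (by rw [h, map_zero]))
  have hBtop : B ≠ ⊤ := by
    rintro rfl
    have hyB := hnu a₀ ha₀
    rw [ValuationSubring.mem_nonunits_iff] at hyB
    have h1 : ((φ a₀)⁻¹ : F) ∈ (⊤ : ValuationSubring F) := ValuationSubring.mem_top _
    rw [← ValuationSubring.valuation_le_one_iff, map_inv₀] at h1
    have h2 : (⊤ : ValuationSubring F).valuation (φ a₀) ≠ 0 :=
      (Valuation.ne_zero_iff _).mpr (hφ0 _ ha₀')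
    rw [inv_le_one₀ (zero_lt_iff.mpr h2)] at h1
    exact absurd hyB (not_lt.mpr h1)
  refine ⟨placeOf B hKB hBtop, fun a => hAB ⟨a, rfl⟩, fun a ha ha0 => ?_⟩
  exact pos_of_mem_nonunits hKB hBtop (hnu a ha) (hφ0 a ha0)

end FF

variable {X : Scheme.{u}} [AlgebraicGeometry.IsIntegral X] {K : Type u} [Field K]
  (s : X ⟶ Spec (.of K))

/-- the open set where `y` is regular -/
def opU (y : X.functionField) : X.Opens where
  carrier := {z | y ∈ stalkIn z}
  is_open' := by
    rw [isOpen_iff_forall_mem_open]
    intro z hz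
    obtain ⟨U, hzU, h⟩ := Polar.exists_open_mem hz
    exact ⟨U, fun y hy => h y hy, U.isOpen, hzU⟩

theorem mem_opU {y : X.functionField} {z : X} : z ∈ opU y ↔ y ∈ stalkIn z := Iff.rfl

instance nonempty_opU (y : X.functionField) : Nonempty (opU y) :=
  ⟨⟨genericPoint X, stalkIn_genericPoint y⟩⟩

theorem genericPoint_mem (W : X.Opens) [h : Nonempty W] : genericPoint X ∈ W :=
  ((genericPoint_spec X).mem_open_set_iff W.isOpen).mpr (by simpa using h)

/-- a section is a unit at `z` iff the rational function and its inverse are in the stalk -/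
theorem mem_basicOpen_iff {W : X.Opens} [Nonempty W] (b : Γ(X, W)) {z : X} (hz : z ∈ W) :
    z ∈ X.basicOpen b ↔ X.germToFunctionField W b ≠ 0 ∧
      (X.germToFunctionField W b)⁻¹ ∈ stalkIn z := by
  rw [Scheme.mem_basicOpen X b z hz]
  constructor
  · intro h
    exact ⟨Polar.ne_zero_of_isUnit_germ hz h, Polar.inv_mem_stalkIn hz h⟩
  · rintro ⟨h0, ⟨c, hc⟩⟩
    rw [isUnit_iff_exists_inv]
    refine ⟨c, algebraMap_stalk_injective z ?_⟩
    rw [map_mul, hc, map_one, Scheme.algebraMap_germ_eq_germToFunctionField X hz b,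
      mul_inv_cancel₀ h0]

variable [Algebra K X.functionField] (hs : ∀ a, algebraMap K X.functionField a = kFun s a)

include hs

theorem exists_section_of_mem_integralClosure [IsProper s] [SmoothOfRelativeDimension 1 s]
    {y : X.functionField} (f : X.functionField) :
    (∃ a : Γ(X, opU y), X.germToFunctionField (opU y) a = f) ↔
      f ∈ integralClosure (Algebra.adjoin K {y}) X.functionField := by
  have hFF := isFF_functionField s hs
  rw [mem_range_germ_iff, mem_integralClosure_adjoin_iff]
  constructor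
  · intro h w hw
    obtain ⟨z, hz, rfl⟩ := exists_eq_placeAt s hs w
    exact h z hw
  · intro h z hz
    by_cases hg : z = genericPoint X
    · rw [hg]; exact stalkIn_genericPoint f
    · exact h (placeAt s hs z hg) hz

/-- finite type affine opens: finitely many generators -/
theorem exists_finset_generators [LocallyOfFiniteType s] {W : X.Opens} (hW : IsAffineOpen W)
    [Nonempty W] : ∃ G : Finset X.functionField,
      (∀ g ∈ G, ∃ a : Γ(X, W), X.germToFunctionField W a = g) ∧
      ∀ V : ValuationSubring X.functionField, (∀ a, algebraMap K X.functionField a ∈ V) →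
        (∀ g ∈ G, g ∈ V) → ∀ a : Γ(X, W), X.germToFunctionField W a ∈ V := by
  classical
  have h1 : (kSec s W).FiniteType := by
    have h2 := LocallyOfFiniteType.finiteType_appLE (f := s) (U := ⊤) (isAffineOpen_top _) hW
      le_top
    rw [kSec_eq s W le_top]
    exact h2.comp (RingHom.FiniteType.of_surjective _
      (Scheme.ΓSpecIso (.of K)).commRingCatIsoToRingEquiv.symm.surjective)
  let _ : Algebra K Γ(X, W) := (kSec s W).toAlgebra
  have h2 : Algebra.FiniteType K Γ(X, W) := h1
  obtain ⟨G, hG⟩ := h2.out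
  refine ⟨G.image (X.germToFunctionField W), ?_, ?_⟩
  · intro g hg
    obtain ⟨a, -, rfl⟩ := Finset.mem_image.mp hg
    exact ⟨a, rfl⟩
  · intro V hV hGV a
    have ha : a ∈ Algebra.adjoin K (G : Set Γ(X, W)) := by rw [hG]; trivial
    induction ha using Algebra.adjoin_induction with
    | mem x hx => exact hGV _ (Finset.mem_image_of_mem _ hx)
    | algebraMap r =>
      have h3 : X.germToFunctionField W (algebraMap K Γ(X, W) r) = kFun s r := germ_kSec s W r
      rw [h3, ← hs]
      exact hV r
    | add x y _ _ hx hy =>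
      rw [map_add]
      exact add_mem hx hy
    | mul x y _ _ hx hy =>
      rw [map_mul]
      exact mul_mem hx hy

theorem exists_affine_basicOpen [IsProper s] [SmoothOfRelativeDimension 1 s]
    {y : X.functionField} (hy : Transcendental K y) {z : X} (hz : z ∈ opU y)
    (hg : z ≠ genericPoint X) :
    ∃ b : Γ(X, opU y), IsAffineOpen (X.basicOpen b) ∧ b ≠ 0 ∧
      (placeAt s hs z hg).ord (X.germToFunctionField (opU y) b) = 0 := by
  classical
  have hFF := isFF_functionField s hs
  obtain ⟨W, hW, hzW, hWU⟩ := exists_isAffineOpen_mem_and_subset hz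
  have hneW : Nonempty W := ⟨⟨z, hzW⟩⟩
  obtain ⟨G, hG, hGV⟩ := exists_finset_generators s hs hW
  -- the finite set of bad places
  have hfin : {w : Place K X.functionField | y ∈ w.toValuationSubring ∧
      ∃ g ∈ G, g ∉ w.toValuationSubring}.Finite := by
    refine Set.Finite.subset (s := ⋃ g ∈ G, {w : Place K X.functionField | w.ord g ≠ 0})
      (Set.Finite.biUnion G.finite_toSet fun g _ => finite_ord_ne_zero g) ?_
    rintro w ⟨-, g, hgG, hgw⟩
    refine Set.mem_biUnion hgG ?_
    intro h0
    have hg0 : g ≠ 0 := by rintro rfl; exact hgw (zero_mem _)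
    exact hgw ((mem_iff_ord_nonneg w hg0).mpr h0.ge)
  have hzT : placeAt s hs z hg ∉ hfin.toFinset := by
    rw [Set.Finite.mem_toFinset]
    rintro ⟨-, g, hgG, hgw⟩
    apply hgw
    obtain ⟨a, rfl⟩ := hG g hgG
    exact Polar.germ_mem_stalkIn a hzW
  obtain ⟨b, hb, hb0, hvb, hTb⟩ := exists_integralClosure_separating hy (placeAt s hs z hg)
    hfin.toFinset hzT hz (fun w hw => ((Set.Finite.mem_toFinset hfin).mp hw).1)
  obtain ⟨b, rfl⟩ := (exists_section_of_mem_integralClosure s hs b).mpr hb
  refine ⟨b, ?_, ?_, hvb⟩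
  · have hle : X.basicOpen b ≤ W := by
      intro z' hz'
      by_contra hz'W
      have hz'U : z' ∈ opU y := X.basicOpen_le b hz'
      have hg' : z' ≠ genericPoint X := by
        rintro rfl
        exact hz'W (genericPoint_mem W)
      have hT : placeAt s hs z' hg' ∈ hfin.toFinset := by
        rw [Set.Finite.mem_toFinset]
        refine ⟨hz'U, ?_⟩
        by_contra! hcon
        apply hz'W
        exact mem_of_forall_mem s hW (domAt_valAt s z')
          (hGV (valAt s z') (fun a => by rw [hs]; exact kFun_mem_stalkIn s z' a) hcon)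
      have h1 := hTb _ hT
      have h2 := ((mem_basicOpen_iff b hz'U).mp hz').2
      have h3 : (X.germToFunctionField (opU y) b)⁻¹ ∈
        (placeAt s hs z' hg').toValuationSubring := h2
      rw [mem_iff_ord_nonneg _ (inv_ne_zero hb0), Place.ord_inv] at h3
      omega
    have h1 : X.basicOpen (X.presheaf.map (homOfLE hWU).op b) = X.basicOpen b := by
      rw [Scheme.basicOpen_res]
      exact inf_eq_right.mpr hle
    rw [← h1]
    exact hW.basicOpen _
  · rintro rfl
    exact hb0 (map_zero _)

/-- The open `{y ≠ ∞}` is affine. -/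
theorem isAffineOpen_opU [IsProper s] [SmoothOfRelativeDimension 1 s]
    {y : X.functionField} (hy : Transcendental K y) : IsAffineOpen (opU y) := by
  have hFF := isFF_functionField s hs
  apply isAffineOpen_of_isAffineOpen_basicOpen (opU y)
    {b : Γ(X, opU y) | IsAffineOpen (X.basicOpen b)}
  · by_contra hne
    -- a closed point where `y` is regular
    have hex : ∃ b : Γ(X, opU y), IsAffineOpen (X.basicOpen b) ∧ b ≠ 0 := by
      obtain ⟨w, hw⟩ := exists_zero (K := K) hy
      obtain ⟨z, hz, rfl⟩ := exists_eq_placeAt s hs w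
      have hy0 : y ≠ 0 := by rintro rfl; exact hy isAlgebraic_zero
      obtain ⟨b, hb, hb0, -⟩ := exists_affine_basicOpen s hs hy
        (z := z) ((mem_iff_ord_nonneg _ hy0).mpr hw.le) hz
      exact ⟨b, hb, hb0⟩
    obtain ⟨b₀, hb₀, hb₀'⟩ := hex
    have hinj : Function.Injective (X.germToFunctionField (opU y)).hom :=
      X.germToFunctionField_injective (opU y)
    obtain ⟨w, hw, hwI⟩ := exists_place_of_ideal (K := K) (X.germToFunctionField (opU y)).hom
      hinj
      (fun a => ⟨kSec s (opU y) a, (germ_kSec s (opU y) a).trans (hs a).symm⟩) _ hne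
      ⟨b₀, Ideal.subset_span hb₀, hb₀'⟩
    obtain ⟨z, hz, rfl⟩ := exists_eq_placeAt s hs w
    have hzy : z ∈ opU y := by
      obtain ⟨a, ha⟩ := (mem_range_germ_iff (opU y) y).mpr fun z hz => hz
      have := hw a
      rw [show (X.germToFunctionField (opU y)).hom a = y from ha] at this
      exact this
    obtain ⟨b, hb, hb0, hbz⟩ := exists_affine_basicOpen s hs hy hzy hz
    have h2 := hwI b (Ideal.subset_span hb) hb0
    have h3 : (X.germToFunctionField (opU y)).hom b = X.germToFunctionField (opU y) b := rfl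
    rw [h3] at h2
    omega
  · exact fun b hb => hb

omit hs [Algebra K X.functionField] in
theorem opU_sup_opU_inv [SmoothOfRelativeDimension 1 s] (y : X.functionField) :
    opU y ⊔ opU y⁻¹ = ⊤ := by
  rw [eq_top_iff]
  rintro z -
  rcases mem_or_inv_mem_stalkIn s z y with h | h
  · exact Or.inl h
  · exact Or.inr h

end Fermat.Agent.CurvePl
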