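import Fermat.Agent.CurvePl.EtaleDVR
import Fermat.Agent.Jac.GeomInt
import Fermat.Agent.Jac.Sec

/-!
# Smooth affine curves are geometrically Dedekind
-/

set_option autoImplicit false
universe u
open CategoryTheory CategoryTheory.Limits AlgebraicGeometry TopologicalSpace
open IsLocalRing TensorProduct

namespace Fermat.Agent.CurvePl

open Fermat.Agent.AbVar Fermat.Agent.Jac

/-- A domain smooth of relative dimension one over a field is a Dedekind domain. -/
theorem isDedekindDomain_of_smooth {K B : Type u} [Field K] [CommRing B] [IsDomain B]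
    (s : Spec (.of B) ⟶ Spec (.of K)) [SmoothOfRelativeDimension 1 s] : IsDedekindDomain B := by
  have hdom : IsDomain (CommRingCat.of B) := ‹_›
  have hint : AlgebraicGeometry.IsIntegral (Spec (.of B)) := inferInstance
  have hsm : Smooth s := SmoothOfRelativeDimension.smooth 1 s
  have hN : IsNoetherianRing B := by
    have h1 : IsLocallyNoetherian (Spec (CommRingCat.of K)) := inferInstance
    have h2 : IsLocallyNoetherian (Spec (CommRingCat.of B)) :=
      LocallyOfFiniteType.isLocallyNoetherian s
    have h3 := (isLocallyNoetherian_Spec (R := CommRingCat.of B)).mp h2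
    exact h3
  have hD : IsDedekindDomainDvr B := by
    refine { hN with is_dvr_at_nonzero_prime := fun P hP0 hP => ?_ }
    let z : Spec (.of B) := (⟨P, hP⟩ : PrimeSpectrum B)
    have h1 := (stalk_pid s z).1
    let _ : Algebra B ((Spec (.of B)).presheaf.stalk z) :=
      StructureSheaf.stalkAlgebra B (⟨P, hP⟩ : PrimeSpectrum B)
    have h2 : IsLocalization.AtPrime ((Spec (.of B)).presheaf.stalk z) P :=
      StructureSheaf.IsLocalization.to_stalk B (⟨P, hP⟩ : PrimeSpectrum B)
    let e : (Spec (.of B)).presheaf.stalk z ≃ₐ[B] Localization.AtPrime P :=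
      IsLocalization.algEquiv P.primeCompl _ _
    have h3 : IsPrincipalIdealRing (Localization.AtPrime P) :=
      IsPrincipalIdealRing.of_surjective e.toRingEquiv.toRingHom e.surjective
    have h4 : IsDomain (Localization.AtPrime P) := inferInstance
    refine { h3, (inferInstance : IsLocalRing (Localization.AtPrime P)) with not_a_field' := ?_ }
    rw [ne_eq, ← IsLocalRing.isField_iff_maximalIdeal_eq]
    exact IsLocalization.AtPrime.not_isField B hP0 _
  infer_instance

/-- A smooth curve over an algebraically closed field is geometrically Dedekind. -/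
theorem isDedekindDomain_tensor {k : Type u} [Field k] [IsAlgClosed k] {A : Type u} [CommRing A]
    [IsDomain A] [Algebra k A]
    [hA : SmoothOfRelativeDimension 1 (Spec.map (CommRingCat.ofHom (algebraMap k A)))]
    (K : Type u) [Field K] [Algebra k K] : IsDedekindDomain (K ⊗[k] A) := by
  have hsm : Smooth (Spec.map (CommRingCat.ofHom (algebraMap k A))) :=
    SmoothOfRelativeDimension.smooth 1 _
  have hft : Algebra.FiniteType k A := by
    have h1 : LocallyOfFiniteType (Spec.map (CommRingCat.ofHom (algebraMap k A))) := inferInstance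
    rw [HasRingHomProperty.Spec_iff (P := @LocallyOfFiniteType)] at h1
    exact (RingHom.finiteType_algebraMap).mp h1
  have h1 : IsDomain (A ⊗[k] K) := isDomain_tensor
  have h2 : IsDomain (K ⊗[k] A) :=
    (Algebra.TensorProduct.comm k K A).toMulEquiv.isDomain_iff.mpr h1
  have hbc := smoothOfRelativeDimension_isStableUnderBaseChange.{u} 1
  have h3 : SmoothOfRelativeDimension 1 (pullback.fst
      (Spec.map (CommRingCat.ofHom (algebraMap k K)))
      (Spec.map (CommRingCat.ofHom (algebraMap k A)))) :=
    MorphismProperty.pullback_fst (P := @SmoothOfRelativeDimension 1) _ _ hA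
  have h4 : SmoothOfRelativeDimension (0 + 1) ((pullbackSpecIso k K A).inv ≫ pullback.fst
      (Spec.map (CommRingCat.ofHom (algebraMap k K)))
      (Spec.map (CommRingCat.ofHom (algebraMap k A)))) := inferInstance
  have h5 : SmoothOfRelativeDimension 1 ((pullbackSpecIso k K A).inv ≫ pullback.fst
      (Spec.map (CommRingCat.ofHom (algebraMap k K)))
      (Spec.map (CommRingCat.ofHom (algebraMap k A)))) := h4
  exact isDedekindDomain_of_smooth ((pullbackSpecIso k K A).inv ≫ pullback.fst
      (Spec.map (CommRingCat.ofHom (algebraMap k K)))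
      (Spec.map (CommRingCat.ofHom (algebraMap k A))))

variable {k : Type u} [Field k] {C : Scheme.{u}} (c : C ⟶ Spec (CommRingCat.of k))

theorem fromSpec_comp_eq {U : C.Opens} (hU : IsAffineOpen U) :
    hU.fromSpec ≫ c = Spec.map (CommRingCat.ofHom (algebraMap k (SecO c U))) := by
  have h1 := IsAffineOpen.SpecMap_appLE_fromSpec c (isAffineOpen_top (Spec (.of k))) hU le_top
  have h2 : (isAffineOpen_top (Spec (.of k))).fromSpec =
      Spec.map (Scheme.ΓSpecIso (.of k)).inv := by
    rw [IsAffineOpen.fromSpec_top, Scheme.isoSpec_Spec_inv]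
  rw [h2] at h1
  rw [← h1, ← Spec.map_comp]
  rfl

theorem isDedekindDomain_tensor_secO [IsAlgClosed k] [AlgebraicGeometry.IsIntegral C]
    [SmoothOfRelativeDimension 1 c] {U : C.Opens} (hU : IsAffineOpen U) [Nonempty U]
    (K : Type u) [Field K] [Algebra k K] : IsDedekindDomain (K ⊗[k] SecO c U) := by
  have h1 : IsDomain (SecO c U) := inferInstanceAs (IsDomain Γ(C, U))
  have h3 : SmoothOfRelativeDimension (0 + 1) (hU.fromSpec ≫ c) := inferInstance
  have h2 : SmoothOfRelativeDimension 1
      (Spec.map (CommRingCat.ofHom (algebraMap k (SecO c U)))) := by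
    rw [← fromSpec_comp_eq c hU]
    exact h3
  exact isDedekindDomain_tensor K

end Fermat.Agent.CurvePl
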