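import Fermat.Agent.CurvePl.Sections
import Fermat.Agent.FF.PolyClosure

/-!
# Local rings of a smooth curve
-/

set_option autoImplicit false
universe u
open CategoryTheory CategoryTheory.Limits AlgebraicGeometry TopologicalSpace
open IsLocalRing IntermediateField

namespace Fermat.Agent.CurvePl

open Fermat.Agent.AbVar Fermat.Agent.Jac Fermat.Agent.FF

theorem isPrincipal_maximalIdeal_of_unramified {P A : Type*} [CommRing P]
    [IsPrincipalIdealRing P] [CommRing A] [Algebra P A] [Algebra.FormallyUnramified P A]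
    [Algebra.EssFiniteType P A] (q : Ideal A) [q.IsPrime] :
    (maximalIdeal (Localization.AtPrime q)).IsPrincipal := by
  have h1 : Algebra.IsUnramifiedAt P q := inferInstance
  let _ := Localization.AtPrime.algebraOfLiesOver (q.under P) q
  have h2 := ((Algebra.isUnramifiedAt_iff_map_eq P (q.under P) q).mp h1).2
  rw [← h2]
  obtain ⟨⟨a, ha⟩⟩ := IsPrincipalIdealRing.principal (q.under P)
  rw [ha]
  exact ⟨⟨algebraMap P (Localization.AtPrime q) a, by
    rw [Ideal.submodule_span_eq, Ideal.map_span, Set.image_singleton, Ideal.submodule_span_eq]⟩⟩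

/-- an étale algebra over `K[X]` which is a domain has a function field as fraction field. -/
theorem isFF_of_etale {K : Type*} [Field K] {A F : Type*} [CommRing A] [IsDomain A] [Field F]
    [Algebra A F] [IsFractionRing A F] [Algebra K F] (g : MvPolynomial (Fin 1) K →+* A)
    (hg : g.Etale) (hK : ∀ a : K, algebraMap A F (g (MvPolynomial.C a)) = algebraMap K F a) :
    IsFF K F := by
  let _ : Algebra (MvPolynomial (Fin 1) K) A := g.toAlgebra
  have hgE : Algebra.Etale (MvPolynomial (Fin 1) K) A := hg
  have hflat : Module.Flat (MvPolynomial (Fin 1) K) A := inferInstance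
  have htf : Module.IsTorsionFree (MvPolynomial (Fin 1) K) A := inferInstance
  have hginj : Function.Injective g := by
    rw [injective_iff_map_eq_zero]
    intro p hp
    by_contra hp0
    have h1 : p • (1 : A) = 0 := by
      rw [Algebra.smul_def, mul_one]; exact hp
    exact one_ne_zero ((smul_eq_zero_iff_right hp0).mp h1)
  let _ : Algebra (MvPolynomial (Fin 1) K) F := ((algebraMap A F).comp g).toAlgebra
  have htow : IsScalarTower (MvPolynomial (Fin 1) K) A F := IsScalarTower.of_algebraMap_eq
    fun _ => rfl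
  have htowK : IsScalarTower K (MvPolynomial (Fin 1) K) F := IsScalarTower.of_algebraMap_eq
    fun a => (hK a).symm
  set x : F := algebraMap (MvPolynomial (Fin 1) K) F (MvPolynomial.X 0) with hx
  have hinj : Function.Injective (algebraMap (MvPolynomial (Fin 1) K) F) :=
    (IsFractionRing.injective A F).comp hginj
  have htr : Transcendental K x := by
    rw [hx, transcendental_algebraMap_iff hinj]
    exact MvPolynomial.transcendental_X K 0
  let ψ : MvPolynomial (Fin 1) K →ₐ[K] K⟮x⟯ :=
    MvPolynomial.aeval fun _ => ⟨x, mem_adjoin_simple_self K x⟩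
  let _ : Algebra (MvPolynomial (Fin 1) K) K⟮x⟯ := ψ.toRingHom.toAlgebra
  have htow2 : IsScalarTower (MvPolynomial (Fin 1) K) K⟮x⟯ F := by
    refine IsScalarTower.of_algebraMap_eq' ?_
    have h1 : (IsScalarTower.toAlgHom K (MvPolynomial (Fin 1) K) F) =
        (IsScalarTower.toAlgHom K K⟮x⟯ F).comp ψ := by
      apply MvPolynomial.algHom_ext
      intro i
      fin_cases i
      simp [ψ, hx]
    exact congrArg AlgHom.toRingHom h1
  have h1 : Algebra.FormallyUnramified A F :=
    Algebra.FormallyUnramified.of_isLocalization (nonZeroDivisors A)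
  have h2 : Algebra.FormallyUnramified (MvPolynomial (Fin 1) K) F :=
    Algebra.FormallyUnramified.comp (MvPolynomial (Fin 1) K) A F
  have h3 : Algebra.FormallyUnramified K⟮x⟯ F :=
    Algebra.FormallyUnramified.of_restrictScalars (MvPolynomial (Fin 1) K) K⟮x⟯ F
  have h4 : Algebra.EssFiniteType A F := Algebra.EssFiniteType.of_isLocalization _ (nonZeroDivisors A)
  have h5 : Algebra.EssFiniteType (MvPolynomial (Fin 1) K) F :=
    Algebra.EssFiniteType.comp (MvPolynomial (Fin 1) K) A F
  have h6 : Algebra.EssFiniteType K⟮x⟯ F :=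
    Algebra.EssFiniteType.of_comp (MvPolynomial (Fin 1) K) K⟮x⟯ F
  have h7 : Module.Finite K⟮x⟯ F := Algebra.FormallyUnramified.finite_of_free K⟮x⟯ F
  exact IsFF.of_finite htr


theorem isPrincipal_maximalIdeal_of_ringEquiv {R O : Type*} [CommRing R] [IsLocalRing R]
    [CommRing O] [IsLocalRing O] (e : R ≃+* O) (h : (maximalIdeal R).IsPrincipal) :
    (maximalIdeal O).IsPrincipal := by
  obtain ⟨⟨a, ha⟩⟩ := h
  refine ⟨⟨e a, ?_⟩⟩
  have h4 : (maximalIdeal R).map (e : R →+* O) = maximalIdeal O :=
    IsLocalRing.map_maximalIdeal_of_surjective (e : R →+* O) e.surjective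
  rw [← h4, ha, Ideal.submodule_span_eq, Ideal.map_span, Set.image_singleton]
  rfl

theorem isPrincipalIdealRing_of_ringEquiv {R O : Type*} [CommRing R] [IsLocalRing R]
    [CommRing O] [IsDomain O] [IsLocalRing O] [IsNoetherianRing R]
    (e : R ≃+* O) (h : (maximalIdeal R).IsPrincipal) :
    IsPrincipalIdealRing O ∧ ValuationRing O := by
  have h2 : IsNoetherianRing O := isNoetherianRing_of_ringEquiv _ e
  have h3 := isPrincipal_maximalIdeal_of_ringEquiv e h
  have h5 := tfae_of_isNoetherianRing_of_isLocalRing_of_isDomain O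
  exact ⟨(h5.out 4 0).mp h3, (h5.out 4 1).mp h3⟩

variable {X : Scheme.{u}} [AlgebraicGeometry.IsIntegral X] {K : Type u} [Field K] (s : X ⟶ Spec (.of K))

theorem stalk_pid [SmoothOfRelativeDimension 1 s] (z : X) :
    IsPrincipalIdealRing (X.presheaf.stalk z) ∧ ValuationRing (X.presheaf.stalk z) := by
  obtain ⟨V, hV, hz, g, hgC, hg⟩ := exists_chart_dim s 1 z
  have hne : Nonempty V := ⟨⟨z, hz⟩⟩
  let _ : Algebra (MvPolynomial (Fin 1) K) Γ(X, V) := g.toAlgebra
  have hgE : Algebra.Etale (MvPolynomial (Fin 1) K) Γ(X, V) := hg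
  have hPID : IsPrincipalIdealRing (MvPolynomial (Fin 1) K) :=
    IsPrincipalIdealRing.of_surjective
      ((MvPolynomial.uniqueAlgEquiv K (Fin 1)).symm : Polynomial K →+* MvPolynomial (Fin 1) K)
      (MvPolynomial.uniqueAlgEquiv K (Fin 1)).symm.surjective
  have hN : IsNoetherianRing Γ(X, V) := by
    have : Algebra.FiniteType (MvPolynomial (Fin 1) K) Γ(X, V) := inferInstance
    exact Algebra.FiniteType.isNoetherianRing (MvPolynomial (Fin 1) K) _
  let _ := X.presheaf.algebra_section_stalk ⟨z, hz⟩
  have hloc := hV.isLocalization_stalk ⟨z, hz⟩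
  let e : Localization.AtPrime (hV.primeIdealOf ⟨z, hz⟩).asIdeal ≃+* X.presheaf.stalk z :=
    (IsLocalization.algEquiv (hV.primeIdealOf ⟨z, hz⟩).asIdeal.primeCompl _ _).toRingEquiv
  have hN' : IsNoetherianRing (Localization.AtPrime (hV.primeIdealOf ⟨z, hz⟩).asIdeal) :=
    IsLocalization.isNoetherianRing (hV.primeIdealOf ⟨z, hz⟩).asIdeal.primeCompl _ inferInstance
  exact isPrincipalIdealRing_of_ringEquiv e
    (isPrincipal_maximalIdeal_of_unramified (P := MvPolynomial (Fin 1) K) _)

end Fermat.Agent.CurvePl
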