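import Fermat.Agent.CurvePl.EtaleDVR

/-!
# Points of a proper smooth curve and places of its function field
-/

set_option autoImplicit false
universe u
open CategoryTheory CategoryTheory.Limits AlgebraicGeometry TopologicalSpace
open IsLocalRing IntermediateField AlgebraicCurve

namespace Fermat.Agent.CurvePl

open Fermat.Agent.AbVar Fermat.Agent.Jac Fermat.Agent.FF

variable {X : Scheme.{u}} [AlgebraicGeometry.IsIntegral X] {K : Type u} [Field K]
  (s : X ⟶ Spec (.of K))

theorem germ_kSec (V : X.Opens) [Nonempty V] (a : K) :
    X.germToFunctionField V (kSec s V a) = kFun s a := by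
  have h := X.presheaf.germ_res (homOfLE (le_top : V ≤ ⊤)) (genericPoint X)
    (((genericPoint_spec X).mem_open_set_iff V.isOpen).mpr (by simpa using ‹Nonempty V›))
  have : (X.germToFunctionField V).hom.comp (kSec s V) = kFun s := by
    unfold kFun kStalk kSec
    rw [← h]
    rfl
  rw [← this]
  rfl

variable [Algebra K X.functionField] (hs : ∀ a, algebraMap K X.functionField a = kFun s a)

include hs in
theorem isFF_functionField [SmoothOfRelativeDimension 1 s] : IsFF K X.functionField := by
  obtain ⟨V, hV, hz, g, hgC, hg⟩ := exists_chart_dim s 1 (genericPoint X)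
  have hne : Nonempty V := ⟨⟨_, hz⟩⟩
  have := functionField_isFractionRing_of_isAffineOpen X V hV
  refine isFF_of_etale g hg fun a => ?_
  have h1 : g (MvPolynomial.C a) = kSec s V a := congrArg (fun ψ => ψ a) hgC
  rw [h1, hs]
  exact germ_kSec s V a

omit [Algebra K X.functionField] in
theorem mem_or_inv_mem_stalkIn [SmoothOfRelativeDimension 1 s] (z : X) (x : X.functionField) :
    x ∈ stalkIn z ∨ x⁻¹ ∈ stalkIn z := by
  have h2 := (stalk_pid s z).2
  rcases ValuationRing.isInteger_or_isInteger (X.presheaf.stalk z) x with ⟨a, ha⟩ | ⟨a, ha⟩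
  · exact Or.inl ⟨a, ha⟩
  · exact Or.inr ⟨a, ha⟩

omit [Algebra K X.functionField] in
/-- the local ring at `z` as a valuation ring of the function field. -/
noncomputable def valAt [SmoothOfRelativeDimension 1 s] (z : X) :
    ValuationSubring X.functionField where
  __ := stalkIn z
  mem_or_inv_mem' := mem_or_inv_mem_stalkIn s z

omit [Algebra K X.functionField] in
theorem mem_valAt [SmoothOfRelativeDimension 1 s] {z : X} {x : X.functionField} :
    x ∈ valAt s z ↔ x ∈ stalkIn z := Iff.rfl

omit [Algebra K X.functionField] in
theorem domAt_valAt [SmoothOfRelativeDimension 1 s] (z : X) : DomAt (valAt s z) z :=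
  ⟨fun _ h => h, fun _ _ h => h⟩

omit [Algebra K X.functionField] in
theorem stalkIn_genericPoint (x : X.functionField) : x ∈ stalkIn (genericPoint X) := by
  refine ⟨x, ?_⟩
  have : X.presheaf.stalkSpecializes ((genericPoint_spec X).specializes trivial :
    genericPoint X ⤳ genericPoint X) = 𝟙 _ := by
    simp
  show (X.presheaf.stalkSpecializes _).hom x = x
  rw [this]
  rfl

omit [Algebra K X.functionField] in
theorem domAt_top_genericPoint : DomAt (⊤ : ValuationSubring X.functionField) (genericPoint X) :=
  ⟨fun _ _ => trivial, fun _ _ _ => stalkIn_genericPoint _⟩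

omit [Algebra K X.functionField] in
theorem eq_genericPoint_of_valAt_eq_top [IsSeparated s] [SmoothOfRelativeDimension 1 s] {z : X}
    (h : valAt s z = ⊤) : z = genericPoint X := by
  have h1 := domAt_valAt s z
  rw [h] at h1
  exact h1.unique s domAt_top_genericPoint

omit [Algebra K X.functionField] in
theorem isPrincipalIdealRing_valAt [SmoothOfRelativeDimension 1 s] (z : X) :
    IsPrincipalIdealRing (valAt s z) := by
  have h1 := (stalk_pid s z).1
  refine IsPrincipalIdealRing.of_surjective (stalkTo (domAt_valAt s z).1) ?_
  rintro ⟨x, a, rfl⟩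
  exact ⟨a, rfl⟩

include hs in
/-- the place attached to a closed point -/
noncomputable def placeAt [IsSeparated s] [SmoothOfRelativeDimension 1 s] (z : X)
    (hz : z ≠ genericPoint X) : Place K X.functionField where
  toValuationSubring := valAt s z
  algebraMap_mem' a := by rw [hs]; exact kFun_mem_stalkIn s z a
  ne_top' h := hz (eq_genericPoint_of_valAt_eq_top s h)
  isPrincipalIdealRing' := isPrincipalIdealRing_valAt s z

theorem mem_placeAt [IsSeparated s] [SmoothOfRelativeDimension 1 s] {z : X}
    {hz : z ≠ genericPoint X} {x : X.functionField} :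
    x ∈ (placeAt s hs z hz).toValuationSubring ↔ x ∈ stalkIn z := Iff.rfl

theorem placeAt_injective [IsSeparated s] [SmoothOfRelativeDimension 1 s] {z z' : X}
    {hz : z ≠ genericPoint X} {hz' : z' ≠ genericPoint X}
    (h : placeAt s hs z hz = placeAt s hs z' hz') : z = z' := by
  have h1 := domAt_valAt s z
  have h2 : valAt s z = valAt s z' := congrArg Place.toValuationSubring h
  rw [h2] at h1
  exact h1.unique s (domAt_valAt s z')

theorem exists_eq_placeAt [IsProper s] [SmoothOfRelativeDimension 1 s]
    (w : Place K X.functionField) :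
    ∃ (z : X) (hz : z ≠ genericPoint X), w = placeAt s hs z hz := by
  obtain ⟨z, hz⟩ := exists_domAt s w.toValuationSubring fun a => by
    rw [← hs]; exact w.algebraMap_mem' a
  have hne : z ≠ genericPoint X := by
    rintro rfl
    apply w.ne_top'
    ext x
    exact ⟨fun _ => trivial, fun _ => hz.1 _ (stalkIn_genericPoint x)⟩
  exact ⟨z, hne, (eq_of_le fun x hx => hz.1 x hx).symm⟩

end Fermat.Agent.CurvePl
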