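import Fermat.Agent.CurvePl.Center
import Fermat.Agent.AbVar.Polar

/-!
# Sections of the structure sheaf of an integral scheme as an intersection of stalks
-/

set_option autoImplicit false
universe u
open CategoryTheory CategoryTheory.Limits AlgebraicGeometry TopologicalSpace
open IsLocalRing

namespace Fermat.Agent.CurvePl

open Fermat.Agent.AbVar Fermat.Agent.Jac

variable {X : Scheme.{u}} [IsIntegral X] {K : Type u} [Field K] (s : X ⟶ Spec (.of K))

theorem germToFunctionField_resO {U V : X.Opens} [Nonempty U] [Nonempty V] (h : V ≤ U)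
    (a : Γ(X, U)) : X.germToFunctionField V (resO h a) = X.germToFunctionField U a :=
  X.presheaf.germ_res_apply (homOfLE h) _ _ a

theorem nonempty_inf {U V : X.Opens} [hU : Nonempty U] [hV : Nonempty V] :
    Nonempty (U ⊓ V : X.Opens) := by
  obtain ⟨⟨x, hx⟩⟩ := hU
  obtain ⟨⟨y, hy⟩⟩ := hV
  obtain ⟨z, hz⟩ := nonempty_preirreducible_inter U.isOpen V.isOpen ⟨x, hx⟩ ⟨y, hy⟩
  exact ⟨⟨z, hz⟩⟩

/-- A rational function is a section over `U` iff it belongs to all the stalks at points of `U`. -/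
theorem mem_range_germ_iff (U : X.Opens) [Nonempty U] (f : X.functionField) :
    (∃ a : Γ(X, U), X.germToFunctionField U a = f) ↔ ∀ z ∈ U, f ∈ stalkIn z := by
  constructor
  · rintro ⟨a, rfl⟩ z hz
    exact Polar.germ_mem_stalkIn a hz
  · intro h
    have h1 : ∀ z : U, ∃ (W : X.Opens) (_ : z.1 ∈ W) (_ : W ≤ U) (_ : Nonempty W) (σ : Γ(X, W)),
        X.germToFunctionField W σ = f := by
      intro z
      obtain ⟨W, hzW, hne, σ, hσ⟩ := Polar.exists_section (h z.1 z.2)
      have hne' : Nonempty (W ⊓ U : X.Opens) := ⟨⟨z.1, hzW, z.2⟩⟩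
      refine ⟨W ⊓ U, ⟨hzW, z.2⟩, inf_le_right, hne', resO inf_le_left σ, ?_⟩
      rw [germToFunctionField_resO, hσ]
    choose W hzW hWU hne σ hσ using h1
    obtain ⟨t, ht, -⟩ := X.sheaf.existsUnique_gluing' W U (fun z => homOfLE (hWU z))
      (fun z hz => Opens.mem_iSup.2 ⟨⟨z, hz⟩, hzW ⟨z, hz⟩⟩) σ (fun z z' => by
        have hne2 : Nonempty (W z ⊓ W z' : X.Opens) := nonempty_inf
        apply X.germToFunctionField_injective (W z ⊓ W z')
        have h2 := germToFunctionField_resO (inf_le_left : W z ⊓ W z' ≤ W z) (σ z)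
        have h3 := germToFunctionField_resO (inf_le_right : W z ⊓ W z' ≤ W z') (σ z')
        rw [hσ] at h2 h3
        exact h2.trans h3.symm)
    refine ⟨t, ?_⟩
    obtain ⟨⟨z, hz⟩⟩ := ‹Nonempty U›
    rw [← hσ ⟨z, hz⟩, ← ht ⟨z, hz⟩]
    exact (germToFunctionField_resO (hWU ⟨z, hz⟩) t).symm

omit [AlgebraicGeometry.IsIntegral X] in
/-- Two `V`-points with the same generic point are equal. -/
theorem specV_ext [IsSeparated s] {R F : Type u} [CommRing R] [IsDomain R] [ValuationRing R]
    [Field F] [Algebra R F] [IsFractionRing R F] (l₁ l₂ : Spec (.of R) ⟶ X)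
    (h : Spec.map (CommRingCat.ofHom (algebraMap R F)) ≫ l₁ =
      Spec.map (CommRingCat.ofHom (algebraMap R F)) ≫ l₂) : l₁ = l₂ := by
  have h1 : l₁ ≫ s = l₂ ≫ s := by
    obtain ⟨ρ₁, hρ₁⟩ := Spec.map_surjective (l₁ ≫ s)
    obtain ⟨ρ₂, hρ₂⟩ := Spec.map_surjective (l₂ ≫ s)
    rw [← hρ₁, ← hρ₂]
    have h2 : Spec.map (ρ₁ ≫ CommRingCat.ofHom (algebraMap R F)) =
        Spec.map (ρ₂ ≫ CommRingCat.ofHom (algebraMap R F)) := by
      rw [Spec.map_comp, Spec.map_comp, hρ₁, hρ₂, ← Category.assoc, h, Category.assoc]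
    have h3 := Spec.map_injective h2
    congr 1
    ext a
    exact IsFractionRing.injective R F (congrArg (fun ψ => ψ.hom a) h3)
  let S : ValuativeCommSq s :=
    { R := R
      K := F
      i₁ := Spec.map (CommRingCat.ofHom (algebraMap R F)) ≫ l₁
      i₂ := l₁ ≫ s
      commSq := ⟨by rw [Category.assoc]⟩ }
  have hsub : Subsingleton S.commSq.LiftStruct := IsSeparated.valuativeCriterion s S
  let L₁ : S.commSq.LiftStruct := ⟨l₁, rfl, rfl⟩
  let L₂ : S.commSq.LiftStruct := ⟨l₂, h.symm, h1.symm⟩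
  exact congrArg (fun l => l.l) (Subsingleton.elim L₁ L₂)

/-- If the sections over an affine open `W` are integral at the place dominating `z`, then
`z ∈ W`. -/
theorem mem_of_forall_mem [IsSeparated s] {W : X.Opens} (hW : IsAffineOpen W) [hne : Nonempty W]
    {z : X} {V : ValuationSubring X.functionField} (hz : DomAt V z)
    (h : ∀ a : Γ(X, W), X.germToFunctionField W a ∈ V) : z ∈ W := by
  have hη : genericPoint X ∈ W :=
    ((genericPoint_spec X).mem_open_set_iff W.isOpen).mpr (by simpa using hne)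
  let ψ : Γ(X, W) →+* V := (X.germToFunctionField W).hom.codRestrict V.toSubring h
  let l₂ : Spec (.of V) ⟶ X := Spec.map (CommRingCat.ofHom ψ) ≫ hW.fromSpec
  have h1 : Spec.map (CommRingCat.ofHom (algebraMap V X.functionField)) ≫ l₂ =
      Spec.map (CommRingCat.ofHom (algebraMap V X.functionField)) ≫ specTo hz.1 := by
    rw [generic_comp_specTo, ← hW.fromSpecStalk_eq_fromSpecStalk hη, IsAffineOpen.fromSpecStalk,
      ← Category.assoc, ← Spec.map_comp]
    rfl
  have h2 := specV_ext s l₂ (specTo hz.1) h1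
  rw [← specTo_closedPoint hz, ← h2]
  have h3 : Set.range hW.fromSpec = W := hW.range_fromSpec
  have h4 : hW.fromSpec ((Spec.map (CommRingCat.ofHom ψ)) (closedPoint V)) ∈ (W : Set X) := by
    rw [← h3]; exact ⟨_, rfl⟩
  exact h4

end Fermat.Agent.CurvePl
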